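/-
S12 / block FI, nodes CH-4, CH-5 (Gauss norms): definitions for the formal part.
-/
import Fermat.Agent.S12.FI.Core.Binom

set_option autoImplicit false

namespace Fermat.Agent.S12.FI

variable {K : Type*} [Field K] (A : ValuationSubring K)

/-- the valuation of `A` has rank one (archimedean value group) -/
def RankOne : Prop :=
  ∀ x y : K, A.valuation x < 1 → y ≠ 0 → ∃ k : ℕ, A.valuation x ^ k < A.valuation y

/-- bounded coefficients -/
def Bdd (f : LaurentSeries K) : Prop := ∃ b : K, Le A b f

end Fermat.Agent.S12.FI
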