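/-
S12 / block FI, node G-F1 (Mathlib + Core only): `A((q))` is completely integrally closed in `K((q))`
when `A` has rank one.  (Proved by helper123.)
-/
import Fermat.Agent.S12.FI.Chart.G.Defs

set_option autoImplicit false

namespace Fermat.Agent.S12.FI

variable {K : Type*} [Field K] {A : ValuationSubring K}

theorem gF1_leadingCoeff_pow (x : LaurentSeries K) (k : ℕ) :
    (x ^ k).leadingCoeff = x.leadingCoeff ^ k := by
  induction k with
  | zero => rw [pow_zero, pow_zero, HahnSeries.leadingCoeff_one]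
  | succ k ih => rw [pow_succ, pow_succ, HahnSeries.leadingCoeff_mul, ih]

/-- the hypothesis is stable under subtraction of an integral series -/
theorem gF1_mul_pow_sub {H F F0 : LaurentSeries K} (h : ∀ k : ℕ, Le A 1 (H * F ^ k))
    (h0 : Le A 1 F0) (k : ℕ) : ∀ j : ℕ, Le A 1 (H * F ^ j * (F - F0) ^ k) := by
  induction k with
  | zero =>
    intro j
    rw [pow_zero, mul_one]
    exact h j
  | succ k ih =>
    intro j
    have e : H * F ^ j * (F - F0) ^ (k + 1) =
        H * F ^ (j + 1) * (F - F0) ^ k - H * F ^ j * (F - F0) ^ k * F0 := by ring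
    rw [e]
    have h1 := (ih j).mul h0
    rw [mul_one] at h1
    exact (ih (j + 1)).sub h1

/-- if `H ≠ 0` and `H F ^ k` is integral for all `k`, then `F` is integral -/
theorem le_one_of_forall_mul_pow (hA : RankOne A) {H F : LaurentSeries K} (hH : H ≠ 0)
    (h : ∀ k : ℕ, Le A 1 (H * F ^ k)) : Le A 1 F := by
  classical
  by_contra hF
  have hex : ∃ n : ℤ, 1 < A.valuation (F.coeff n) := by
    by_contra hne
    apply hF
    intro n
    rw [map_one]
    exact not_lt.1 (fun hn => hne ⟨n, hn⟩)
  obtain ⟨n1, hn1, hmin⟩ := Int.exists_least_of_bdd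
    (P := fun n => 1 < A.valuation (F.coeff n)) ⟨F.order, fun z hz => by
      by_contra hlt
      have h0 : F.coeff z = 0 := HahnSeries.coeff_eq_zero_of_lt_order (not_le.1 hlt)
      simp only [h0, map_zero] at hz
      exact not_lt_zero hz⟩ hex
  have hF0 : Le A 1 (HahnSeries.truncLT n1 F) := by
    intro i
    rw [HahnSeries.coeff_truncLT, map_one]
    split_ifs with hi
    · exact not_lt.1 (fun hlt => absurd (hmin i hlt) (not_le.2 hi))
    · rw [map_zero]
      exact zero_le
  have hc1 : ∀ i < n1, (F - HahnSeries.truncLT n1 F).coeff i = 0 := by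
    intro i hi
    rw [HahnSeries.coeff_sub, HahnSeries.coeff_truncLT, if_pos hi, sub_self]
  have hc2 : (F - HahnSeries.truncLT n1 F).coeff n1 = F.coeff n1 := by
    rw [HahnSeries.coeff_sub, HahnSeries.coeff_truncLT, if_neg (lt_irrefl _), sub_zero]
  have hφ0 : F.coeff n1 ≠ 0 := by
    intro h0
    simp only [h0, map_zero] at hn1
    exact not_lt_zero hn1
  have hF1 : F - HahnSeries.truncLT n1 F ≠ 0 := fun h0 =>
    hφ0 (by rw [← hc2, h0, HahnSeries.coeff_zero])
  have hord : (F - HahnSeries.truncLT n1 F).order = n1 := by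
    apply le_antisymm
    · exact HahnSeries.order_le_of_coeff_ne_zero (by rw [hc2]; exact hφ0)
    · by_contra hlt
      exact (HahnSeries.coeff_order_eq_zero.not.2 hF1) (hc1 _ (not_le.1 hlt))
  have hlead : (F - HahnSeries.truncLT n1 F).leadingCoeff = F.coeff n1 := by
    rw [HahnSeries.leadingCoeff_eq, hord, hc2]
  have hk : ∀ k : ℕ, A.valuation H.leadingCoeff * A.valuation (F.coeff n1) ^ k ≤ 1 := by
    intro k
    have h1 := gF1_mul_pow_sub h hF0 k 0
    rw [pow_zero, mul_one] at h1
    have h2 := h1 (H * (F - HahnSeries.truncLT n1 F) ^ k).order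
    rw [← HahnSeries.leadingCoeff_eq, HahnSeries.leadingCoeff_mul, gF1_leadingCoeff_pow, hlead,
      map_mul, map_pow, map_one] at h2
    exact h2
  have hh0 : H.leadingCoeff ≠ 0 := HahnSeries.leadingCoeff_ne_zero.2 hH
  obtain ⟨k, hk'⟩ := hA (F.coeff n1)⁻¹ H.leadingCoeff
    (by rw [map_inv₀]; exact inv_lt_one_of_one_lt₀ hn1) hh0
  have hpos : 0 < A.valuation (F.coeff n1) ^ k :=
    pow_pos (zero_lt_iff.2 ((A.valuation.ne_zero_iff).2 hφ0)) k
  have h3 : A.valuation (F.coeff n1)⁻¹ ^ k * A.valuation (F.coeff n1) ^ k <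
      A.valuation H.leadingCoeff * A.valuation (F.coeff n1) ^ k :=
    mul_lt_mul_of_pos_right hk' hpos
  rw [← mul_pow, ← map_mul, inv_mul_cancel₀ hφ0, map_one, one_pow] at h3
  exact absurd (hk k) (not_le.2 h3)

end Fermat.Agent.S12.FI
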