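/-
S12 / block FI, node G-F2 (Mathlib + Core only): powers of an integral element have a common
denominator.
-/
import Fermat.Agent.S12.FI.Chart.G.Defs

set_option autoImplicit false

namespace Fermat.Agent.S12.FI

variable {K : Type*} [Field K] {A : ValuationSubring K}

private theorem gF2_mul {f g : LaurentSeries K} (hf : Le A 1 f) (hg : Le A 1 g) :
    Le A 1 (f * g) := by
  have h := hf.mul hg
  rwa [mul_one] at h

private theorem gF2_sum {ι : Type*} (s : Finset ι) (f : ι → LaurentSeries K)
    (h : ∀ i ∈ s, Le A 1 (f i)) : Le A 1 (∑ i ∈ s, f i) := by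
  classical
  induction s using Finset.induction_on with
  | empty =>
    rw [Finset.sum_empty]
    exact le_zero 1
  | insert a s ha ih =>
    rw [Finset.sum_insert ha]
    exact (h a (Finset.mem_insert_self a s)).add
      (ih fun i hi => h i (Finset.mem_insert_of_mem hi))

theorem le_one_mul_pow_of_monic {F G : LaurentSeries K} (n : ℕ) (c : ℕ → LaurentSeries K)
    (hc : ∀ i < n, Le A 1 (c i)) (hF : F ^ n = ∑ i ∈ Finset.range n, c i * F ^ i)
    (hG : Le A 1 G) (hFG : Le A 1 (F * G)) : ∀ k : ℕ, Le A 1 (G ^ n * F ^ k) := by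
  intro k
  induction k using Nat.strong_induction_on with
  | _ k ih =>
    by_cases hk : k < n
    · have h1 : G ^ n * F ^ k = G ^ (n - k) * (F * G) ^ k := by
        rw [mul_pow, mul_comm (F ^ k), ← mul_assoc, ← pow_add, Nat.sub_add_cancel hk.le]
      rw [h1]
      exact gF2_mul (hG.pow _) (hFG.pow _)
    · rw [not_lt] at hk
      have h1 : G ^ n * F ^ k =
          ∑ i ∈ Finset.range n, c i * (G ^ n * F ^ (k - n + i)) := by
        have h2 : F ^ k = F ^ (k - n) * F ^ n := by
          rw [← pow_add, Nat.sub_add_cancel hk]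
        rw [h2, hF, Finset.mul_sum, Finset.mul_sum]
        refine Finset.sum_congr rfl fun i _ => ?_
        rw [pow_add]
        ring
      rw [h1]
      refine gF2_sum _ _ fun i hi => ?_
      have hi' := Finset.mem_range.1 hi
      exact gF2_mul (hc i hi') (ih (k - n + i) (by omega))

end Fermat.Agent.S12.FI
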