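/-
S12 / block FI, node G-F3 (Mathlib + Core only): a refined Gauss lemma (the sup of the coefficients is
not assumed to be attained).
-/
import Fermat.Agent.S12.FI.Chart.G.Defs

set_option autoImplicit false

namespace Fermat.Agent.S12.FI

variable {K : Type*} [Field K] {A : ValuationSubring K}

/-- the general form of one step: every bound `M ≥ max(1, |e C|)` holds for `F`. -/
theorem gF3_step {F G : LaurentSeries K} {e C : K} (d : ℤ) (hd : A.valuation (G.coeff d) = 1)
    (he : ∀ i : ℤ, i < d → A.valuation (G.coeff i) ≤ A.valuation e) (hG : Le A 1 G)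
    (hC : Le A C F) (hFG : Le A 1 (F * G)) (M : A.ValueGroup) (h1 : 1 ≤ M)
    (h2 : A.valuation (e * C) ≤ M) (n : ℤ) : A.valuation (F.coeff n) ≤ M := by
  classical
  by_contra hcon
  have hex : ∃ z : ℤ, M < A.valuation (F.coeff z) := ⟨n, not_le.1 hcon⟩
  have hbd : ∃ b : ℤ, ∀ z : ℤ, M < A.valuation (F.coeff z) → b ≤ z := by
    refine ⟨F.order, fun z hz => HahnSeries.order_le_of_coeff_ne_zero ?_⟩
    intro h0
    rw [h0, map_zero] at hz
    exact not_lt_zero hz
  obtain ⟨m, hm, hmin⟩ := Int.exists_least_of_bdd hbd hex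
  have hFm : F.coeff m ≠ 0 := by
    intro h0
    rw [h0, map_zero] at hm
    exact not_lt_zero hm
  have hGd : G.coeff d ≠ 0 := by
    intro h0
    rw [h0, map_zero] at hd
    exact zero_ne_one hd
  have hmem : (m, d) ∈ Finset.antidiagonal F.isPWO_support G.isPWO_support (m + d) := by
    rw [Finset.mem_antidiagonal]
    exact ⟨hFm, hGd, rfl⟩
  have hsum := HahnSeries.coeff_mul (x := F) (y := G) (a := m + d)
  rw [← Finset.add_sum_erase _ _ hmem] at hsum
  have hrest : A.valuation (∑ ij ∈ (Finset.antidiagonal F.isPWO_support G.isPWO_support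
      (m + d)).erase (m, d), F.coeff ij.1 * G.coeff ij.2) ≤ M := by
    refine A.valuation.map_sum_le fun ij hij => ?_
    rw [Finset.mem_erase, Finset.mem_antidiagonal] at hij
    obtain ⟨hne, -, -, hadd⟩ := hij
    rw [map_mul]
    rcases lt_trichotomy ij.1 m with hlt | heq | hgt
    · have h3 : A.valuation (F.coeff ij.1) ≤ M := by
        by_contra h4
        have := hmin _ (not_le.1 h4)
        omega
      have h4 : A.valuation (G.coeff ij.2) ≤ 1 := by
        have := hG ij.2
        rwa [map_one] at this
      calc _ ≤ M * 1 := mul_le_mul' h3 h4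
        _ = M := mul_one _
    · exact absurd (Prod.ext heq (by simp only; omega)) hne
    · have h3 : A.valuation (G.coeff ij.2) ≤ A.valuation e := he _ (by omega)
      calc _ ≤ A.valuation C * A.valuation e := mul_le_mul' (hC _) h3
        _ = A.valuation (e * C) := by rw [map_mul, mul_comm]
        _ ≤ M := h2
  have hFG' : A.valuation ((F * G).coeff (m + d)) ≤ M := by
    have := hFG (m + d)
    rw [map_one] at this
    exact this.trans h1
  have hterm : F.coeff m * G.coeff d = (F * G).coeff (m + d) -
      ∑ ij ∈ (Finset.antidiagonal F.isPWO_support G.isPWO_support (m + d)).erase (m, d),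
        F.coeff ij.1 * G.coeff ij.2 := by
    rw [hsum]
    ring
  have hle : A.valuation (F.coeff m * G.coeff d) ≤ M := by
    rw [hterm]
    exact (A.valuation.map_sub _ _).trans (max_le hFG' hrest)
  rw [map_mul, hd, mul_one] at hle
  exact absurd hm (not_lt.2 hle)

/-- one step: `|F| ≤ |C|` improves to `|F| ≤ max(1, |e C|)` -/
theorem le_step {F G : LaurentSeries K} {e C : K} (d : ℤ) (hd : A.valuation (G.coeff d) = 1)
    (he : ∀ i : ℤ, i < d → A.valuation (G.coeff i) ≤ A.valuation e) (hG : Le A 1 G)
    (hC : Le A C F) (hFG : Le A 1 (F * G)) (h1 : 1 ≤ A.valuation (e * C)) : Le A (e * C) F :=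
  fun n => gF3_step d hd he hG hC hFG _ h1 le_rfl n

/-- the first unit coefficient -/
theorem exists_first_unit {G : LaurentSeries K} (hG : Le A 1 G) (hGn : ¬ Lt A 1 G) :
    ∃ (d : ℤ) (e : K), A.valuation (G.coeff d) = 1 ∧ A.valuation e < 1 ∧
      ∀ i : ℤ, i < d → A.valuation (G.coeff i) ≤ A.valuation e := by
  classical
  have hle : ∀ i, A.valuation (G.coeff i) ≤ 1 := fun i => by
    have := hG i
    rwa [map_one] at this
  have hex : ∃ z : ℤ, A.valuation (G.coeff z) = 1 := by
    unfold Lt at hGn
    rw [not_forall] at hGn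
    obtain ⟨z, hz⟩ := hGn
    rw [map_one, not_lt] at hz
    exact ⟨z, le_antisymm (hle z) hz⟩
  have hbd : ∃ b : ℤ, ∀ z : ℤ, A.valuation (G.coeff z) = 1 → b ≤ z := by
    refine ⟨G.order, fun z hz => HahnSeries.order_le_of_coeff_ne_zero ?_⟩
    intro h0
    rw [h0, map_zero] at hz
    exact zero_ne_one hz
  obtain ⟨d, hd, hmin⟩ := Int.exists_least_of_bdd hbd hex
  obtain ⟨e, hes, hmax⟩ := Finset.exists_max_image
    (insert (0 : K) ((Finset.Ico G.order d).image fun i => G.coeff i)) (fun x => A.valuation x)
    ⟨0, Finset.mem_insert_self _ _⟩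
  refine ⟨d, e, hd, ?_, fun i hi => ?_⟩
  · rw [Finset.mem_insert, Finset.mem_image] at hes
    rcases hes with rfl | ⟨i, hi, rfl⟩
    · rw [map_zero]
      exact zero_lt_one
    · rw [Finset.mem_Ico] at hi
      refine lt_of_le_of_ne (hle i) fun h => ?_
      have := hmin i h
      omega
  · by_cases hio : i < G.order
    · rw [HahnSeries.coeff_eq_zero_of_lt_order hio, map_zero]
      exact zero_le
    · refine hmax _ (Finset.mem_insert_of_mem (Finset.mem_image.2 ⟨i, ?_, rfl⟩))
      rw [Finset.mem_Ico]
      exact ⟨not_lt.1 hio, hi⟩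

theorem le_one_of_le_of_mul (hA : RankOne A) {F G : LaurentSeries K} {C : K} (hC : Le A C F)
    (hG : Le A 1 G) (hGn : ¬ Lt A 1 G) (hFG : Le A 1 (F * G)) : Le A 1 F := by
  obtain ⟨d, e, hd, he1, he⟩ := exists_first_unit hG hGn
  have key : ∀ k : ℕ, ∀ n, A.valuation (F.coeff n) ≤ max 1 (A.valuation (e ^ k * C)) := by
    intro k
    induction k with
    | zero =>
      intro n
      rw [pow_zero, one_mul]
      exact (hC n).trans (le_max_right _ _)
    | succ k ih =>
      intro n
      rcases le_total (A.valuation (e ^ k * C)) 1 with h | h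
      · have := ih n
        rw [max_eq_left h] at this
        exact this.trans (le_max_left _ _)
      · have hC' : Le A (e ^ k * C) F := fun n => by
          have := ih n
          rwa [max_eq_right h] at this
        have := gF3_step d hd he hG hC' hFG (max 1 (A.valuation (e * (e ^ k * C))))
          (le_max_left _ _) (le_max_right _ _) n
        rwa [← mul_assoc, ← pow_succ'] at this
  intro n
  rw [map_one]
  by_cases hC0 : C = 0
  · have := hC n
    rw [hC0, map_zero] at this
    exact this.trans zero_le_one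
  · obtain ⟨k, hk⟩ := hA e C⁻¹ he1 (inv_ne_zero hC0)
    have hvC : 0 < A.valuation C := zero_lt_iff.2 ((A.valuation.ne_zero_iff).2 hC0)
    have h1 : A.valuation (e ^ k * C) ≤ 1 := by
      rw [map_mul, map_pow]
      calc _ ≤ A.valuation C⁻¹ * A.valuation C := mul_le_mul_left hk.le _
        _ = 1 := by rw [← map_mul, inv_mul_cancel₀ hC0, map_one]
    have := key k n
    rwa [max_eq_left h1] at this

end Fermat.Agent.S12.FI
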