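/-
S12 / block FI, node G-F4: assembly of the formal part.
-/
import Fermat.Agent.S12.FI.Chart.G.F1
import Fermat.Agent.S12.FI.Chart.G.F2
import Fermat.Agent.S12.FI.Chart.G.F3

set_option autoImplicit false

namespace Fermat.Agent.S12.FI

variable {K : Type*} [Field K] {A : ValuationSubring K}

theorem exists_common_bound (n : ℕ) (c : ℕ → LaurentSeries K) (hc : ∀ i < n, Bdd A (c i)) :
    ∃ b : K, 1 ≤ A.valuation b ∧ ∀ i < n, Le A b (c i) := by
  induction n with
  | zero => exact ⟨1, by rw [map_one], fun i hi => absurd hi (Nat.not_lt_zero i)⟩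
  | succ n ih =>
    obtain ⟨b, hb1, hb⟩ := ih (fun i hi => hc i (Nat.lt_succ_of_lt hi))
    obtain ⟨b', hb'⟩ := hc n (Nat.lt_succ_self n)
    rcases le_total (A.valuation b) (A.valuation b') with h | h
    · refine ⟨b', hb1.trans h, fun i hi => ?_⟩
      rcases Nat.lt_succ_iff_lt_or_eq.1 hi with hi' | rfl
      · exact (hb i hi').mono h
      · exact hb'
    · refine ⟨b, hb1, fun i hi => ?_⟩
      rcases Nat.lt_succ_iff_lt_or_eq.1 hi with hi' | rfl
      · exact hb i hi'
      · exact hb'.mono h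

/-- rescaling a monic relation -/
theorem gF4_rescale {F : LaurentSeries K} (a : K) (n : ℕ) (c : ℕ → LaurentSeries K)
    (hF : F ^ n = ∑ i ∈ Finset.range n, c i * F ^ i) :
    (HahnSeries.C a * F) ^ n =
      ∑ i ∈ Finset.range n, (HahnSeries.C (a ^ (n - i)) * c i) * (HahnSeries.C a * F) ^ i := by
  rw [mul_pow, hF, Finset.mul_sum]
  refine Finset.sum_congr rfl fun i hi => ?_
  have hi' : i ≤ n := (Finset.mem_range.1 hi).le
  have h1 : (HahnSeries.C a : LaurentSeries K) ^ n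
      = HahnSeries.C (a ^ (n - i)) * HahnSeries.C a ^ i := by
    rw [map_pow, ← pow_add, Nat.sub_add_cancel hi']
  rw [h1, mul_pow]
  ring

/-- the rescaled coefficients are integral -/
theorem gF4_coeff_le {b : K} (hb0 : b ≠ 0) (hb1 : 1 ≤ A.valuation b) {f : LaurentSeries K}
    (hf : Le A b f) {m : ℕ} (hm : 1 ≤ m) : Le A 1 (HahnSeries.C (b⁻¹ ^ m) * f) := by
  obtain ⟨k, rfl⟩ : ∃ k, m = k + 1 := ⟨m - 1, by omega⟩
  have hbi : A.valuation b⁻¹ ≤ 1 := by
    rw [map_inv₀]
    exact inv_le_one_of_one_le₀ hb1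
  have h1 : Le A 1 (HahnSeries.C b⁻¹ * f) := (le_iff_smul hb0).1 hf
  have h2 : A.valuation (b⁻¹ ^ k) ≤ 1 := by
    rw [map_pow]
    exact pow_le_one₀ zero_le hbi
  have h3 := h1.smul_le h2
  rwa [← mul_assoc, ← map_mul, ← pow_succ] at h3

/-- a series which is integral over the bounded series and is a quotient of integral series, the
denominator being primitive, is integral -/
theorem le_one_of_integral (hA : RankOne A) {F G : LaurentSeries K} (n : ℕ)
    (c : ℕ → LaurentSeries K) (hc : ∀ i < n, Bdd A (c i))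
    (hF : F ^ n = ∑ i ∈ Finset.range n, c i * F ^ i)
    (hG : Le A 1 G) (hGn : ¬ Lt A 1 G) (hFG : Le A 1 (F * G)) : Le A 1 F := by
  obtain ⟨b, hb1, hb⟩ := exists_common_bound n c hc
  have hb0 : b ≠ 0 := by
    rintro rfl
    rw [map_zero] at hb1
    exact absurd hb1 (not_le.2 zero_lt_one)
  have hbi : A.valuation b⁻¹ ≤ 1 := by
    rw [map_inv₀]
    exact inv_le_one_of_one_le₀ hb1
  have hG0 : G ≠ 0 := by
    rintro rfl
    refine hGn fun m => ?_
    rw [HahnSeries.coeff_zero, map_zero, map_one]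
    exact zero_lt_one
  have hΦ := gF4_rescale b⁻¹ n c hF
  have hc' : ∀ i < n, Le A 1 (HahnSeries.C (b⁻¹ ^ (n - i)) * c i) := fun i hi =>
    gF4_coeff_le hb0 hb1 (hb i hi) (by omega)
  have hΦG : Le A 1 (HahnSeries.C b⁻¹ * F * G) := by
    rw [mul_assoc]
    exact hFG.smul_le hbi
  have hk := le_one_mul_pow_of_monic n (fun i => HahnSeries.C (b⁻¹ ^ (n - i)) * c i) hc' hΦ hG hΦG
  have hΦ1 : Le A 1 (HahnSeries.C b⁻¹ * F) :=
    le_one_of_forall_mul_pow hA (pow_ne_zero n hG0) hk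
  exact le_one_of_le_of_mul hA ((le_iff_smul hb0).2 hΦ1) hG hGn hFG

end Fermat.Agent.S12.FI
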