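/-
S12 / block FI, node G-GD: the function field of `X₀(N)` is Gauss-good at `l ∤ N` (from `S28.Export`).
-/
import Fermat.Agent.S12.FI.Chart.Defs
import Fermat.Agent.S28.Export.Main

set_option autoImplicit false

namespace Fermat.Agent.S12.FI

open ModularCurve AlgebraicCurve Fermat.Agent.S24 Fermat.Agent.GAL.E Fermat.Agent.S15.A
  Fermat.Agent.S28.Export

variable (N : ℕ) [NeZero N] {l : ℕ} (A : ValuationSubring Kbar)

theorem exists_red (hl : l.Prime) (hlN : ¬ l ∣ N) (hA : A.LiesOverPrime l) (f : FN N)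
    (h0 : f ≠ 0) : ∃ c : Kbar, c ≠ 0 ∧ ∃ g : LaurentSeries (IsLocalRing.ResidueField A), g ≠ 0 ∧
      Red A (c • (f : LaurentSeries Kbar)) g := by
  have : Fact l.Prime := ⟨hl⟩
  obtain ⟨D, -, -⟩ := exists_good_UData N l hlN
  have hgood : IsGood A (modularFunctionFieldFullC Kbar N) := isGood_full A D hA
  have hmem : (f : LaurentSeries Kbar) ∈ modularFunctionFieldFullC Kbar N := by
    rw [← bar_eq_full]
    exact f.2
  have hne : (f : LaurentSeries Kbar) ≠ 0 := fun h => h0 (Subtype.ext h)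
  exact hgood _ hmem hne

end Fermat.Agent.S12.FI
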