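/-
S12 / block FI, node G-IJ: a function regular off the cusps is integral over `ℚ̄[j]`, and the elements
of `ℚ̄[j]` have bounded expansions.
-/
import Fermat.Agent.S12.FI.Chart.Defs
import Fermat.Agent.S12.FI.Chart.G.Defs
import Fermat.Agent.S12.FI.Core.Main
import Fermat.Agent.S15.A.Cusp.Cusp0
import Fermat.Agent.S27.H.LSpace
import Fermat.Agent.S24.Formal
import Fermat.Agent.S24.Export.Ramification
import Fermat.Prelude.Def_ModularCurve_X0ModL

set_option autoImplicit false

namespace Fermat.Agent.S12.FI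

open ModularCurve AlgebraicCurve Fermat.Agent.S24 Fermat.Agent.GAL.E Fermat.Agent.S15.A

variable (N : ℕ) [NeZero N] (A : ValuationSubring Kbar)

theorem isIntegral_of_mem_Rcusp (f : FN N) (hf : f ∈ Rcusp N) :
    IsIntegral (Algebra.adjoin Kbar {jF N}) f := by
  haveI : FF.IsFF1 Kbar (FN N) := Fermat.Agent.S24.Export.isFF1 N
  refine Fermat.Agent.S27.H.LSpace.isIntegral_of_forall_ord (Formal.transcendental_jF N) ?_
  intro w hw
  apply Fermat.Agent.S24.FF.ord_nonneg_of_mem
  apply hf w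
  rintro (rfl | rfl)
  · rw [ord_cuspInf_jF] at hw
    omega
  · rw [ord_cusp0_jF] at hw
    have : 0 < N := Nat.pos_of_ne_zero (NeZero.ne N)
    omega

open Fermat.Agent.S24.B in
theorem gIntJ_coe_jF : ((jF N : FN N) : LaurentSeries Kbar) = jqModC Kbar := by
  show Jser 1 = _
  rw [Formal.Jser_one, ← jqModC_rat]
  exact coeffMap_jqModC _

theorem le_one_jF : Le A 1 ((jF N : FN N) : LaurentSeries Kbar) := by
  intro n
  rw [gIntJ_coe_jF, ← coeffMap_jqModC A.subtype, coeffMap_coeff, map_one]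
  exact (A.valuation_le_one_iff _).2 (Subtype.mem _)

theorem gIntJ_bdd_add {f g : LaurentSeries Kbar} (hf : Bdd A f) (hg : Bdd A g) : Bdd A (f + g) := by
  obtain ⟨a, ha⟩ := hf
  obtain ⟨b, hb⟩ := hg
  rcases le_total (A.valuation a) (A.valuation b) with h | h
  · exact ⟨b, (ha.mono h).add hb⟩
  · exact ⟨a, ha.add (hb.mono h)⟩

theorem bdd_of_mem_adjoin (a : FN N) (ha : a ∈ Algebra.adjoin Kbar {jF N}) :
    Bdd A (a : LaurentSeries Kbar) := by
  induction ha using Algebra.adjoin_induction with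
  | mem x hx =>
    rw [Set.mem_singleton_iff] at hx
    subst hx
    exact ⟨1, le_one_jF N A⟩
  | algebraMap c =>
    refine ⟨c, ?_⟩
    have : ((algebraMap Kbar (FN N) c : FN N) : LaurentSeries Kbar) = HahnSeries.C c :=
      algebraMap_laurentSeries_eq_single Kbar c
    rw [this]
    exact le_C c
  | add x y _ _ hx hy =>
    exact gIntJ_bdd_add A hx hy
  | mul x y _ _ hx hy =>
    obtain ⟨a, ha⟩ := hx
    obtain ⟨b, hb⟩ := hy
    exact ⟨a * b, ha.mul hb⟩

theorem exists_relation (f : FN N) (hf : f ∈ Rcusp N) :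
    ∃ (n : ℕ) (c : ℕ → LaurentSeries Kbar), (∀ i < n, Bdd A (c i)) ∧
      (f : LaurentSeries Kbar) ^ n = ∑ i ∈ Finset.range n, c i * (f : LaurentSeries Kbar) ^ i := by
  obtain ⟨p, hp, hpf⟩ := isIntegral_of_mem_Rcusp N f hf
  refine ⟨p.natDegree, fun i => -toL N ((p.coeff i : Algebra.adjoin Kbar {jF N}) : FN N), ?_, ?_⟩
  · intro i _
    obtain ⟨b, hb⟩ := bdd_of_mem_adjoin N A _ (p.coeff i).2
    exact ⟨b, hb.neg⟩
  · rw [Polynomial.eval₂_eq_sum_range, Finset.sum_range_succ, hp.coeff_natDegree, map_one,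
      one_mul] at hpf
    have h := congrArg (toL N) hpf
    rw [map_add, map_sum, map_pow, map_zero] at h
    rw [← toL_apply, eq_comm, ← neg_eq_iff_eq_neg.2 (eq_neg_of_add_eq_zero_left h), ← Finset.sum_neg_distrib]
    refine Finset.sum_congr rfl fun i _ => ?_
    rw [map_mul, map_pow, neg_mul]
    rfl

end Fermat.Agent.S12.FI
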