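/-
S12 / block FI, node G-RK: places of `ℚ̄` over a prime have rank one.
-/
import Fermat.Agent.S12.FI.Chart.G.Defs
import Fermat.Agent.Lib.InertiaField.Arch
import Fermat.Agent.Lib.InertiaField.Unram

set_option autoImplicit false

namespace Fermat.Agent.S12.FI

open Fermat.Agent.Lib.InertiaField

theorem rankOne_of_liesOverPrime {l : ℕ} (hl : l.Prime) (A : ValuationSubring Qb)
    (hA : A.LiesOverPrime l) : RankOne A := by
  intro x y hx hy
  have hl0 : (l : Qb) ≠ 0 := by exact_mod_cast hl.ne_zero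
  obtain ⟨k, hk⟩ := exists_div_pow_not_mem A l hl hA hy
  have hpos : 0 < A.valuation (l : Qb) ^ k :=
    zero_lt_iff.2 (pow_ne_zero k ((Valuation.ne_zero_iff _).2 hl0))
  have h1 : A.valuation (l : Qb) ^ k < A.valuation y := by
    rw [← A.valuation_le_one_iff, map_div₀, map_pow, div_le_one₀ hpos, not_le] at hk
    exact hk
  obtain ⟨N, hN⟩ := exists_pow_div_pow_mem A l hl hA ((A.mem_nonunits_iff).2 hx) k
  have h2 : A.valuation x ^ N ≤ A.valuation (l : Qb) ^ k := by
    rw [← A.valuation_le_one_iff, map_div₀, map_pow, map_pow, div_le_one₀ hpos] at hN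
    exact hN
  exact ⟨N, lt_of_le_of_lt h2 h1⟩

end Fermat.Agent.S12.FI
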