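/-
S12 / block FI, node G-RL: bridge between `S28.Export.Red` and `Le`, `Lt`.
-/
import Fermat.Agent.S12.FI.Chart.G.Defs
import Fermat.Agent.S28.Export.Red

set_option autoImplicit false

namespace Fermat.Agent.S12.FI

open ModularCurve Fermat.Agent.S28.Export

variable {K : Type*} [Field K] {A : ValuationSubring K}

theorem gRedLe_le_one_iota (P : LaurentSeries A) : Le A 1 (iota A P) := fun n => by
  rw [map_one]
  exact (A.valuation_le_one_iff _).2 (P.coeff n).2

theorem gRedLe_lt_one_iota_iff (P : LaurentSeries A) : Lt A 1 (iota A P) ↔ rho A P = 0 :=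
  lt_one_inc_iff P

theorem exists_of_red {F : LaurentSeries K} {g : LaurentSeries (IsLocalRing.ResidueField A)}
    (h : Red A F g) : ∃ G : LaurentSeries K, Le A 1 G ∧ ¬ Lt A 1 G ∧ Le A 1 (F * G) ∧
      (g ≠ 0 → ¬ Lt A 1 (F * G)) := by
  obtain ⟨G₁, G₂, h2, hF, hg⟩ := h
  refine ⟨iota A G₂, gRedLe_le_one_iota G₂, fun h => h2 ((gRedLe_lt_one_iota_iff G₂).1 h), ?_, ?_⟩
  · rw [hF]
    exact gRedLe_le_one_iota G₁
  · intro hg0 h
    rw [hF, gRedLe_lt_one_iota_iff, ← hg] at h
    exact mul_ne_zero hg0 h2 h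

theorem red_of_le_one {F : LaurentSeries K} (h : Le A 1 F) :
    ∃ g : LaurentSeries (IsLocalRing.ResidueField A), Red A F g := by
  obtain ⟨P, rfl⟩ := h.exists_inc
  exact ⟨rho A P, red_iota P⟩

end Fermat.Agent.S12.FI
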