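/-
S12 / block FI, node G-INT: a function regular off the cusps which lies in the Gauss ring has an
integral expansion.
-/
import Fermat.Agent.S12.FI.Chart.G.F4
import Fermat.Agent.S12.FI.Chart.G.Rank
import Fermat.Agent.S12.FI.Chart.G.IntJ
import Fermat.Agent.S12.FI.Chart.G.RedLe

set_option autoImplicit false

namespace Fermat.Agent.S12.FI

open ModularCurve AlgebraicCurve Fermat.Agent.S24 Fermat.Agent.GAL.E Fermat.Agent.S15.A
  Fermat.Agent.S28.Export

variable (N : ℕ) [NeZero N] {l : ℕ} (A : ValuationSubring Kbar)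

theorem le_one_of_red (hl : l.Prime) (hA : A.LiesOverPrime l) (f : FN N) (hf : f ∈ Rcusp N)
    {g : LaurentSeries (IsLocalRing.ResidueField A)} (h : Red A (f : LaurentSeries Kbar) g) :
    Le A 1 (f : LaurentSeries Kbar) ∧ (g ≠ 0 → ¬ Lt A 1 (f : LaurentSeries Kbar)) := by
  obtain ⟨G, hG, hGn, hFG, hg⟩ := exists_of_red h
  obtain ⟨n, c, hc, hrel⟩ := exists_relation N A f hf
  refine ⟨le_one_of_integral (rankOne_of_liesOverPrime hl A hA) n c hc hrel hG hGn hFG, ?_⟩
  intro hg0 hlt
  apply hg hg0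
  have := hlt.mul_le hG one_ne_zero
  rwa [one_mul] at this

end Fermat.Agent.S12.FI
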