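/-
S12 / block FI, node G-W1: polynomials in `j` and `j_N = w(j)` with integral coefficients.
-/
import Fermat.Agent.S12.FI.Chart.G.Good
import Fermat.Agent.S15.A.Cusp.WN
import Fermat.Agent.S15.A.Defs

set_option autoImplicit false

namespace Fermat.Agent.S12.FI

open ModularCurve AlgebraicCurve Fermat.Agent.S24 Fermat.Agent.GAL.E Fermat.Agent.S15.A
  Fermat.Agent.S28.Export Polynomial

theorem gW1_coeffMap_qExpand {R S : Type*} [CommRing R] [CommRing S] (φ : R →+* S) (m : ℕ)
    [NeZero m] (f : LaurentSeries R) :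
    coeffMap φ (qExpand R m f) = qExpand S m (coeffMap φ f) := by
  ext k
  by_cases hk : (m : ℤ) ∣ k
  · obtain ⟨j, rfl⟩ := hk
    rw [coeffMap_coeff, qExpand_coeff_mul, qExpand_coeff_mul, coeffMap_coeff]
  · rw [coeffMap_coeff, qExpand_coeff_of_not_dvd m _ hk, qExpand_coeff_of_not_dvd m _ hk, map_zero]

theorem gW1_evalT_qExpand {S : Type*} [CommRing S] (m : ℕ) [NeZero m] (t : LaurentSeries S)
    (P : S[X]) : evalT (qExpand S m t) P = qExpand S m (evalT t P) := by
  rw [evalT, evalT, coe_eval₂RingHom, coe_eval₂RingHom, hom_eval₂]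
  congr 1
  ext a : 1
  exact (qExpand_C m a).symm

variable (N : ℕ) [NeZero N] (A : ValuationSubring Kbar)

theorem gW1_coe_jF : ((jF N : FN N) : LaurentSeries Kbar) = jqModC Kbar := by
  show Jser 1 = _
  rw [Formal.Jser_one, ← jqModC_rat]
  exact coeffMap_jqModC _

theorem gW1_coe_jN : ((jN N : FN N) : LaurentSeries Kbar) = qExpand Kbar N (jqModC Kbar) := by
  show Jser N = _
  rw [B.Jser_eq_qExpand, ← gW1_coe_jF N]
  rfl

theorem gW1_coe_aeval (x : FN N) (Q : Kbar[X]) :
    ((aeval x Q : FN N) : LaurentSeries Kbar) = aeval (x : LaurentSeries Kbar) Q :=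
  (aeval_algHom_apply (modularFunctionFieldBar N).val x Q).symm

theorem wN_aeval_jF (P : Kbar[X]) : wN N (aeval (jF N) P) = aeval (jN N) P := by
  rw [jN, ← wN_jF]
  exact (aeval_algHom_apply (wN N : FN N →ₐ[Kbar] FN N) (jF N) P).symm

theorem coe_aeval_jF (P : A[X]) : ((aeval (jF N) (P.map A.subtype) : FN N) : LaurentSeries Kbar) =
    iota A (evalT (jqModC A) P) := by
  rw [gW1_coe_aeval, gW1_coe_jF, ← evalT_eq_aeval, iota_evalT, iota_jqModC]

theorem coe_aeval_jN (P : A[X]) : ((aeval (jN N) (P.map A.subtype) : FN N) : LaurentSeries Kbar) =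
    iota A (evalT (qExpand A N (jqModC A)) P) := by
  rw [gW1_coe_aeval, gW1_coe_jN, ← evalT_eq_aeval, iota_evalT, gW1_coeffMap_qExpand, iota_jqModC]

/-- the reduction of `j_N` is transcendental over the residue field -/
theorem injective_evalT_rho_jN :
    Function.Injective (evalT (rho A (qExpand A N (jqModC A)))) := by
  rw [gW1_coeffMap_qExpand, rho_jqModC]
  intro P Q h
  rw [gW1_evalT_qExpand, gW1_evalT_qExpand] at h
  have h1 := qExpand_injective (R := IsLocalRing.ResidueField A) N h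
  rw [evalT_jqModC] at h1
  exact Fermat.Agent.S28.evalJ_injective _ h1

/-- `P(j_N)` has reduction `P̄(j̄_N)`, nonzero if `P̄ ≠ 0` -/
theorem red_aeval_jN (P : A[X]) :
    ∃ g : LaurentSeries (IsLocalRing.ResidueField A),
      Red A ((aeval (jN N) (P.map A.subtype) : FN N) : LaurentSeries Kbar) g ∧
      (P.map (IsLocalRing.residue A) ≠ 0 → g ≠ 0) :=
  ⟨evalT (rho A (qExpand A N (jqModC A))) (P.map (IsLocalRing.residue A)),
    by rw [coe_aeval_jN]; exact red_evalT _ P,
    fun h => evalT_rho_ne_zero _ (injective_evalT_rho_jN N A) h⟩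

end Fermat.Agent.S12.FI
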