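/-
S12 / block FI, node G-W2: `w` maps the Gauss ring of `ℚ̄(j)` into the Gauss ring of `F_N`.
-/
import Fermat.Agent.S12.FI.Chart.G.W1

set_option autoImplicit false

namespace Fermat.Agent.S12.FI

open ModularCurve AlgebraicCurve Fermat.Agent.S24 Fermat.Agent.GAL.E Fermat.Agent.S15.A
  Fermat.Agent.S28.Export Polynomial

variable (N : ℕ) [NeZero N] (A : ValuationSubring Kbar)

theorem red_wN_of_mem_jK (a : FN N) (ha : (a : LaurentSeries Kbar) ∈ jK Kbar)
    {g : LaurentSeries (IsLocalRing.ResidueField A)} (h : Red A (a : LaurentSeries Kbar) g) :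
    ∃ g' : LaurentSeries (IsLocalRing.ResidueField A),
      Red A ((wN N a : FN N) : LaurentSeries Kbar) g' := by
  obtain ⟨r, s, hs, hrs, -⟩ := exists_frac_of_red (jqModC A) (injective_evalT_rho A)
    (by rw [iota_jqModC]; exact ha) h
  -- the identity in `FN N`
  have h1 : a * aeval (jF N) (s.map A.subtype) = aeval (jF N) (r.map A.subtype) := by
    apply Subtype.ext
    rw [coe_aeval_jF, ← hrs, ← coe_aeval_jF N A s]
    rfl
  have h2 : wN N a * aeval (jN N) (s.map A.subtype) = aeval (jN N) (r.map A.subtype) := by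
    rw [← wN_aeval_jF, ← wN_aeval_jF, ← map_mul, h1]
  obtain ⟨gs, hgs, hgs0⟩ := red_aeval_jN N A s
  obtain ⟨gr, hgr, -⟩ := red_aeval_jN N A r
  have hgs1 : gs ≠ 0 := hgs0 hs
  have hs0 : ((aeval (jN N) (s.map A.subtype) : FN N) : LaurentSeries Kbar) ≠ 0 :=
    hgs.ne_zero hgs1
  have h3 : ((wN N a : FN N) : LaurentSeries Kbar) *
      ((aeval (jN N) (s.map A.subtype) : FN N) : LaurentSeries Kbar) =
      ((aeval (jN N) (r.map A.subtype) : FN N) : LaurentSeries Kbar) :=
    congrArg Subtype.val h2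
  refine ⟨gr / gs, ?_⟩
  rw [eq_div_of_mul_eq hs0 h3]
  exact hgr.div hgs hgs1

end Fermat.Agent.S12.FI
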