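/-
S12 / block FI, node G-W3: `w(u)` lies in the Gauss ring (it is integral over `A[j_N]`).
-/
import Fermat.Agent.S12.FI.Chart.G.W1
import Fermat.Agent.KLB.Mod.GaussVS

set_option autoImplicit false

namespace Fermat.Agent.S12.FI

open ModularCurve AlgebraicCurve Fermat.Agent.S24 Fermat.Agent.GAL.E Fermat.Agent.S15.A
  Fermat.Agent.S28 Fermat.Agent.S28.Export Polynomial

/-- abstract form: a valuation ring is integrally closed. -/
theorem gW3_mem_of_monic {F R : Type*} [Field F] [CommRing R] (W : ValuationSubring F)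
    (e1 : R →+* F) (he1 : ∀ P, e1 P ∈ W) (x : F) (χ : R[X]) (hχ : χ.Monic)
    (h : (χ.map e1).eval x = 0) : x ∈ W := by
  let e2 : R →+* W := RingHom.codRestrict e1 W.toSubring he1
  have hint : IsIntegral W x := by
    refine ⟨χ.map e2, hχ.map _, ?_⟩
    rw [eval₂_map]
    have h1 : (algebraMap W F).comp e2 = e1 := RingHom.ext fun _ => rfl
    rw [h1, ← eval_map]
    exact h
  obtain ⟨y, hy⟩ := IsIntegrallyClosed.isIntegral_iff.1 hint
  rw [← hy]
  exact y.2

variable (N : ℕ) [NeZero N] {l : ℕ} (A : ValuationSubring Kbar)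

/-- an element of `F_N` which is integral over `A[j_N]` lies in the Gauss ring -/
theorem red_of_monic_jN (hl : l.Prime) (hlN : ¬ l ∣ N) (hA : A.LiesOverPrime l) (x : FN N)
    (χ : A[X][X]) (hχ : χ.Monic)
    (h : (χ.map ((aeval (jN N) : Kbar[X] →ₐ[Kbar] FN N).toRingHom.comp
      (mapRingHom A.subtype))).eval x = 0) :
    ∃ g : LaurentSeries (IsLocalRing.ResidueField A), Red A (x : LaurentSeries Kbar) g := by
  have hgood : KLB.Mod.GoodI ((modularFunctionFieldBar N).val) A :=
    fun f hf => exists_red N A hl hlN hA f hf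
  exact gW3_mem_of_monic (KLB.Mod.gaussVS hgood) _ (fun P => by
    obtain ⟨g, hg, -⟩ := red_aeval_jN N A P
    exact ⟨g, hg⟩) x χ hχ h

theorem red_wN_u [Fact l.Prime] (hlN : ¬ l ∣ N) (hA : A.LiesOverPrime l) (D : UData N l)
    (uF : FN N) (huF : (uF : LaurentSeries Kbar) = uK A D hA) :
    ∃ g : LaurentSeries (IsLocalRing.ResidueField A),
      Red A ((wN N uF : FN N) : LaurentSeries Kbar) g := by
  refine red_of_monic_jN N A Fact.out hlN hA (wN N uF) (S18.Vert.chiS D (S18.Vert.zlTo A hA))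
    (S18.Vert.chiS_monic D _) ?_
  -- the relation in `Kbar((q))`
  have h1 : (S18.Vert.chiS D (S18.Vert.zlTo A hA)).eval₂
      ((Export.iota A).comp (evalT (jqModC A))) (uK A D hA) = 0 := by
    rw [uK, ← hom_eval₂]
    have := S18.Vert.chiS_eval D (S18.Vert.zlTo A hA)
    rw [uO, evalT_jqModC, this, map_zero]
  -- the relation in `FN N`
  have h2 : (S18.Vert.chiS D (S18.Vert.zlTo A hA)).eval₂
      ((aeval (jF N) : Kbar[X] →ₐ[Kbar] FN N).toRingHom.comp (mapRingHom A.subtype)) uF = 0 := by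
    apply Subtype.val_injective
    have h3 := hom_eval₂ (S18.Vert.chiS D (S18.Vert.zlTo A hA))
      ((aeval (jF N) : Kbar[X] →ₐ[Kbar] FN N).toRingHom.comp (mapRingHom A.subtype))
      ((modularFunctionFieldBar N).val : FN N →+* LaurentSeries Kbar) uF
    have h4 : ((modularFunctionFieldBar N).val : FN N →+* LaurentSeries Kbar).comp
        ((aeval (jF N) : Kbar[X] →ₐ[Kbar] FN N).toRingHom.comp (mapRingHom A.subtype)) =
        (Export.iota A).comp (evalT (jqModC A)) := RingHom.ext fun P => coe_aeval_jF N A P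
    have h5 : ((modularFunctionFieldBar N).val : FN N →+* LaurentSeries Kbar) uF = uK A D hA := huF
    rw [h4, h5, h1] at h3
    exact h3
  -- apply `w_N`
  have h6 := hom_eval₂ (S18.Vert.chiS D (S18.Vert.zlTo A hA))
      ((aeval (jF N) : Kbar[X] →ₐ[Kbar] FN N).toRingHom.comp (mapRingHom A.subtype))
      ((wN N : FN N ≃ₐ[Kbar] FN N) : FN N →+* FN N) uF
  have h7 : ((wN N : FN N ≃ₐ[Kbar] FN N) : FN N →+* FN N).comp
      ((aeval (jF N) : Kbar[X] →ₐ[Kbar] FN N).toRingHom.comp (mapRingHom A.subtype)) =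
      (aeval (jN N) : Kbar[X] →ₐ[Kbar] FN N).toRingHom.comp (mapRingHom A.subtype) :=
    RingHom.ext fun P => wN_aeval_jF N (P.map A.subtype)
  rw [h2, map_zero, h7] at h6
  rw [eval_map]
  exact h6.symm

end Fermat.Agent.S12.FI
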