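/-
S12 / block FI, node G-W4: the Atkin-Lehner involution preserves the Gauss ring.
-/
import Fermat.Agent.S12.FI.Chart.G.W2
import Fermat.Agent.S12.FI.Chart.G.W3

set_option autoImplicit false

namespace Fermat.Agent.S12.FI

open ModularCurve AlgebraicCurve Fermat.Agent.S24 Fermat.Agent.GAL.E Fermat.Agent.S15.A
  Fermat.Agent.S28 Fermat.Agent.S28.Export Polynomial

variable (N : ℕ) [NeZero N] {l : ℕ} (A : ValuationSubring Kbar)

theorem red_wN (hl : l.Prime) (hlN : ¬ l ∣ N) (hA : A.LiesOverPrime l) (f : FN N)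
    {g : LaurentSeries (IsLocalRing.ResidueField A)} (h : Red A (f : LaurentSeries Kbar) g) :
    ∃ g' : LaurentSeries (IsLocalRing.ResidueField A),
      Red A ((wN N f : FN N) : LaurentSeries Kbar) g' := by
  have : Fact l.Prime := ⟨hl⟩
  obtain ⟨D, -, hu⟩ := exists_good_UData N l hlN
  have hbig : bigK A D hA = modularFunctionFieldBar N := by
    rw [bigK_eq_full A D hA hu, bar_eq_full]
  have hf : (f : LaurentSeries Kbar) ∈ bigK A D hA := by
    rw [hbig]
    exact f.2
  obtain ⟨a, ab, ha, hab, hfa, -⟩ := exists_coeffs_of_red A D hA hf h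
  have huK : uK A D hA ∈ modularFunctionFieldBar N := by
    rw [← hbig]
    exact IntermediateField.subset_adjoin _ _ (Set.mem_insert_of_mem _ rfl)
  have haF : ∀ i, a i ∈ modularFunctionFieldBar N := fun i => by
    rw [← hbig]
    exact jK_le_bigK A D hA (ha i)
  obtain ⟨uF, huF⟩ : ∃ uF : FN N, (uF : LaurentSeries Kbar) = uK A D hA := ⟨⟨_, huK⟩, rfl⟩
  obtain ⟨aF, haF'⟩ : ∃ aF : ℕ → FN N, ∀ i, (aF i : LaurentSeries Kbar) = a i :=
    ⟨fun i => ⟨a i, haF i⟩, fun _ => rfl⟩
  have hval : ∀ x : FN N, (modularFunctionFieldBar N).val x = (x : LaurentSeries Kbar) :=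
    fun _ => rfl
  have hsum : f = ∑ i ∈ Finset.range D.n, aF i * uF ^ i := by
    apply Subtype.ext
    rw [hfa, ← hval (∑ i ∈ Finset.range D.n, aF i * uF ^ i), map_sum]
    refine Finset.sum_congr rfl fun i _ => ?_
    rw [map_mul, map_pow, hval, hval, haF', huF]
  obtain ⟨gu, hgu⟩ := red_wN_u N A hlN hA D uF huF
  have hga : ∀ i, i < D.n → ∃ g' : LaurentSeries (IsLocalRing.ResidueField A),
      Red A ((wN N (aF i) : FN N) : LaurentSeries Kbar) g' := fun i hi =>
    red_wN_of_mem_jK N A (aF i) (by rw [haF']; exact ha i) (by rw [haF']; exact hab i hi)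
  choose! ga hga' using hga
  refine ⟨∑ i ∈ Finset.range D.n, ga i * gu ^ i, ?_⟩
  have e : ((wN N f : FN N) : LaurentSeries Kbar) =
      ∑ i ∈ Finset.range D.n, ((wN N (aF i) : FN N) : LaurentSeries Kbar) *
        ((wN N uF : FN N) : LaurentSeries Kbar) ^ i := by
    rw [hsum, map_sum, ← hval, map_sum]
    refine Finset.sum_congr rfl fun i _ => ?_
    rw [map_mul, map_pow, map_mul, map_pow, hval, hval]
  rw [e]
  exact Red.sum _ fun i hi => (hga' i (Finset.mem_range.1 hi)).mul (hgu.pow i)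

end Fermat.Agent.S12.FI
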